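import Mathlib
import Fermat.Agent.LT.T7.H671.LimSpec

/-!
# Row LT, tower T7, node T7.14.3f: the leaves `UnitsC` and `ScaleC` of `H671/LimSpec.lean`

OFF-MAIN (helper753).  Registry row 1957.  Both leaves are proved unconditionally.

* `unitsC753 K : H671.UnitsC K` : an element of `Kˣ` of norm one at every finite place is a unit of
  `𝓞 K` (`HeightOneSpectrum.mem_integers_of_valuation_le_one` for `l` and `l⁻¹`).
* `scaleC753 K : H671.ScaleC K` : `rowNorm ((l ξ) g) = rowNorm (ξ g)` for `l ∈ Kˣ` (product formula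
  `NumberField.prod_abs_eq_one`; the finite product splits because `max(|r₀|_v, |r₁|_v) = 1` at
  almost every `v` for the row `r = ξ g`, `ξ ≠ 0`, `g ∈ GL₂(𝔸_K)`).
-/

set_option autoImplicit false

open IsDedekindDomain NumberField

noncomputable section

namespace Fermat.Agent.LT.T7.H753

open Fermat.Agent.LT.H556 Fermat.Agent.LT.H556.A0 Fermat.Agent.LT.T7 Fermat.Agent.LT.T7.Rigid
open Fermat.Agent.LT.T7.H671

variable (K : Type) [Field K] [NumberField K]

/-! ## `UnitsC` -/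

/-- Norm `≤ 1` at every finite place implies integrality. -/
theorem mem_range_of_norm_le753 (x : K)
    (h : ∀ v : HeightOneSpectrum (𝓞 K), ‖algebraMap K (v.adicCompletion K) x‖ ≤ 1) :
    x ∈ (algebraMap (𝓞 K) K).range := by
  refine HeightOneSpectrum.mem_integers_of_valuation_le_one K x fun v => ?_
  have h1 := h v
  rw [Valued.toNormedField.norm_le_one_iff] at h1
  have h2 : Valued.v (algebraMap K (v.adicCompletion K) x) = v.valuation K x :=
    HeightOneSpectrum.valuedAdicCompletion_eq_valuation' v x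
  rw [← h2]
  exact h1

/-- **LEAF UNITS** of `H671/LimSpec.lean`. -/
theorem unitsC753 : UnitsC K := by
  intro l hl
  have h1 : (l : K) ∈ (algebraMap (𝓞 K) K).range :=
    mem_range_of_norm_le753 K _ fun v => (hl v).le
  have h2 : ((l⁻¹ : Kˣ) : K) ∈ (algebraMap (𝓞 K) K).range := by
    refine mem_range_of_norm_le753 K _ fun v => ?_
    rw [Units.val_inv_eq_inv_val, map_inv₀, norm_inv, hl v, inv_one]
  obtain ⟨y, hy⟩ := h1
  obtain ⟨y', hy'⟩ := h2
  have hyy : y * y' = 1 := by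
    apply FaithfulSMul.algebraMap_injective (𝓞 K) K
    rw [map_mul, hy, hy', map_one]
    exact Units.mul_inv l
  refine ⟨⟨y, y', hyy, by rw [mul_comm]; exact hyy⟩, ?_⟩
  exact hy

/-! ## `ScaleC` -/

variable {K}

/-- The norm of a principal adele at an infinite place. -/
theorem infNorm753 (x : K) (w : InfinitePlace K) :
    ‖(algebraMap K (Adl K) x).1 w‖ = w x := by
  have h0 := InfinitePlace.Completion.norm_coe w ((WithAbs.equiv w.1).symm x)
  rw [(WithAbs.equiv w.1).apply_symm_apply] at h0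
  exact h0

/-- The norm of a principal adele at a finite place. -/
theorem finNormAlg753 (x : K) (v : HeightOneSpectrum (𝓞 K)) :
    ‖(algebraMap K (Adl K) x).2 v‖ = (FinitePlace.equivHeightOneSpectrum.symm v) x := rfl

/-- A nonzero element of `K` has norm one at almost every finite place. -/
theorem finite_norm_ne_one753 {x : K} (hx : x ≠ 0) :
    (Function.mulSupport fun v : HeightOneSpectrum (𝓞 K) =>
      ‖(algebraMap K (Adl K) x).2 v‖).Finite := by
  have h2 : (Function.mulSupport fun w : FinitePlace K => w x).Finite :=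
    FinitePlace.hasFiniteMulSupport hx
  refine (h2.image FinitePlace.equivHeightOneSpectrum).subset ?_
  intro v hv
  exact ⟨FinitePlace.equivHeightOneSpectrum.symm v, hv, Equiv.apply_symm_apply _ _⟩

/-- The product formula, for the components of the principal adele. -/
theorem prod_norm_alg753 {x : K} (hx : x ≠ 0) :
    (∏ w : InfinitePlace K, w x ^ w.mult) *
      ∏ᶠ v : HeightOneSpectrum (𝓞 K), ‖(algebraMap K (Adl K) x).2 v‖ = 1 := by
  rw [finprod_eq_of_bijective (f := fun v : HeightOneSpectrum (𝓞 K) =>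
      ‖(algebraMap K (Adl K) x).2 v‖) (g := fun w : FinitePlace K => w x)
      FinitePlace.equivHeightOneSpectrum.symm FinitePlace.equivHeightOneSpectrum.symm.bijective
      (fun _ => rfl)]
  exact prod_abs_eq_one hx

/-- An adele is integral at almost every finite place. -/
theorem eventually_norm_le_one753 (a : Adl K) :
    ∀ᶠ v : HeightOneSpectrum (𝓞 K) in Filter.cofinite, ‖a.2 v‖ ≤ 1 := by
  have h : ∀ᶠ v : HeightOneSpectrum (𝓞 K) in Filter.cofinite,
      a.2 v ∈ v.adicCompletionIntegers K := a.2.2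
  refine h.mono fun v hv => ?_
  rw [HeightOneSpectrum.mem_adicCompletionIntegers] at hv
  rw [Valued.toNormedField.norm_le_one_iff]
  exact hv

/-- A nonzero element of `K` has norm one at almost every finite place (filter form). -/
theorem eventually_norm_eq_one753 {x : K} (hx : x ≠ 0) :
    ∀ᶠ v : HeightOneSpectrum (𝓞 K) in Filter.cofinite, ‖(algebraMap K (Adl K) x).2 v‖ = 1 := by
  rw [Filter.eventually_cofinite]
  exact finite_norm_ne_one753 hx

theorem adl_snd_add753 (a b : Adl K) (v : HeightOneSpectrum (𝓞 K)) :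
    (a + b).2 v = a.2 v + b.2 v := rfl

theorem adl_snd_mul753 (a b : Adl K) (v : HeightOneSpectrum (𝓞 K)) :
    (a * b).2 v = a.2 v * b.2 v := rfl

theorem adl_fst_mul753 (a b : Adl K) (w : InfinitePlace K) :
    (a * b).1 w = a.1 w * b.1 w := rfl

/-- Ultrametric bound for `a b + c d` at a finite place. -/
theorem norm_lin_le753 (v : HeightOneSpectrum (𝓞 K)) (a b c d : Adl K) :
    ‖(a * b + c * d).2 v‖ ≤ max (‖a.2 v‖ * ‖b.2 v‖) (‖c.2 v‖ * ‖d.2 v‖) := by
  rw [adl_snd_add753, adl_snd_mul753, adl_snd_mul753, ← norm_mul, ← norm_mul]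
  exact IsUltrametricDist.norm_add_le_max _ _

/-- `ξ = (ξ g) g⁻¹`. -/
theorem rowOf_mul_inv753 (g : G K) (ξ : Fin 2 → K) (i : Fin 2) :
    algebraMap K (Adl K) (ξ i)
      = rowOf ξ g 0 * ((g⁻¹ : G K) : Matrix (Fin 2) (Fin 2) (Adl K)) 0 i
        + rowOf ξ g 1 * ((g⁻¹ : G K) : Matrix (Fin 2) (Fin 2) (Adl K)) 1 i := by
  have hmul : ∀ k i : Fin 2,
      (g : Matrix (Fin 2) (Fin 2) (Adl K)) k 0
          * ((g⁻¹ : G K) : Matrix (Fin 2) (Fin 2) (Adl K)) 0 i
        + (g : Matrix (Fin 2) (Fin 2) (Adl K)) k 1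
          * ((g⁻¹ : G K) : Matrix (Fin 2) (Fin 2) (Adl K)) 1 i
        = (1 : Matrix (Fin 2) (Fin 2) (Adl K)) k i := by
    intro k i
    have h := congrFun (congrFun (Units.mul_inv g) k) i
    rw [Matrix.mul_apply, Fin.sum_univ_two] at h
    exact h
  have h0 := hmul 0 i
  have h1 := hmul 1 i
  have key : rowOf ξ g 0 * ((g⁻¹ : G K) : Matrix (Fin 2) (Fin 2) (Adl K)) 0 i
        + rowOf ξ g 1 * ((g⁻¹ : G K) : Matrix (Fin 2) (Fin 2) (Adl K)) 1 i
      = algebraMap K (Adl K) (ξ 0) * (1 : Matrix (Fin 2) (Fin 2) (Adl K)) 0 i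
        + algebraMap K (Adl K) (ξ 1) * (1 : Matrix (Fin 2) (Fin 2) (Adl K)) 1 i := by
    rw [← h0, ← h1]
    simp only [rowOf]
    ring
  rw [key, Matrix.one_apply, Matrix.one_apply]
  fin_cases i <;> simp

/-- For `ξ ≠ 0` the row `ξ g` is primitive at almost every finite place. -/
theorem finite_mulSupport_max753 (g : G K) (ξ : Fin 2 → K) (hξ : ξ ≠ 0) :
    (Function.mulSupport fun v : HeightOneSpectrum (𝓞 K) =>
      max ‖(rowOf ξ g 0).2 v‖ ‖(rowOf ξ g 1).2 v‖).Finite := by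
  obtain ⟨i0, hi0⟩ : ∃ i, ξ i ≠ 0 := by
    by_contra h
    exact hξ (funext fun i => by_contra fun hi => h ⟨i, hi⟩)
  have h1 : ∀ᶠ v : HeightOneSpectrum (𝓞 K) in Filter.cofinite, ∀ i j : Fin 2,
      ‖((g : Matrix (Fin 2) (Fin 2) (Adl K)) i j).2 v‖ ≤ 1 := by
    rw [Filter.eventually_all]
    intro i
    rw [Filter.eventually_all]
    intro j
    exact eventually_norm_le_one753 _
  have h2 : ∀ᶠ v : HeightOneSpectrum (𝓞 K) in Filter.cofinite, ∀ i j : Fin 2,
      ‖(((g⁻¹ : G K) : Matrix (Fin 2) (Fin 2) (Adl K)) i j).2 v‖ ≤ 1 := by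
    rw [Filter.eventually_all]
    intro i
    rw [Filter.eventually_all]
    intro j
    exact eventually_norm_le_one753 _
  have h3 : ∀ᶠ v : HeightOneSpectrum (𝓞 K) in Filter.cofinite, ∀ i : Fin 2,
      ‖(algebraMap K (Adl K) (ξ i)).2 v‖ ≤ 1 := by
    rw [Filter.eventually_all]
    intro i
    exact eventually_norm_le_one753 _
  have h4 := eventually_norm_eq_one753 (K := K) hi0
  have h5 : ∀ᶠ v : HeightOneSpectrum (𝓞 K) in Filter.cofinite,
      max ‖(rowOf ξ g 0).2 v‖ ‖(rowOf ξ g 1).2 v‖ = 1 := by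
    filter_upwards [h1, h2, h3, h4] with v hg hgi hx hx0
    have hr : ∀ j : Fin 2, ‖(rowOf ξ g j).2 v‖ ≤ 1 := by
      intro j
      refine (norm_lin_le753 v _ _ _ _).trans (max_le ?_ ?_)
      · exact mul_le_one₀ (hx 0) (norm_nonneg _) (hg 0 j)
      · exact mul_le_one₀ (hx 1) (norm_nonneg _) (hg 1 j)
    refine le_antisymm (max_le (hr 0) (hr 1)) ?_
    have h6 : ‖(algebraMap K (Adl K) (ξ i0)).2 v‖
        ≤ max (‖(rowOf ξ g 0).2 v‖ * ‖(((g⁻¹ : G K) : Matrix (Fin 2) (Fin 2) (Adl K)) 0 i0).2 v‖)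
            (‖(rowOf ξ g 1).2 v‖ * ‖(((g⁻¹ : G K) : Matrix (Fin 2) (Fin 2) (Adl K)) 1 i0).2 v‖) := by
      rw [rowOf_mul_inv753 g ξ i0]
      exact norm_lin_le753 v _ _ _ _
    rw [hx0] at h6
    refine h6.trans (max_le_max ?_ ?_)
    · exact mul_le_of_le_one_right (norm_nonneg _) (hgi 0 i0)
    · exact mul_le_of_le_one_right (norm_nonneg _) (hgi 1 i0)
  rw [Filter.eventually_cofinite] at h5
  exact h5

/-- The infinite factor of `rowNorm` scales by `|l|_w ^ mult`. -/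
theorem inf_factor_scale753 (c : K) (r : Fin 2 → Adl K) (w : InfinitePlace K) :
    (‖(algebraMap K (Adl K) c * r 0).1 w‖ ^ 2 + ‖(algebraMap K (Adl K) c * r 1).1 w‖ ^ 2)
        ^ ((w.mult : ℝ) / 2)
      = w c ^ w.mult * (‖(r 0).1 w‖ ^ 2 + ‖(r 1).1 w‖ ^ 2) ^ ((w.mult : ℝ) / 2) := by
  rw [adl_fst_mul753, adl_fst_mul753, norm_mul, norm_mul, infNorm753]
  have ht : (0 : ℝ) ≤ w c := apply_nonneg w c
  have hS : (0 : ℝ) ≤ ‖(r 0).1 w‖ ^ 2 + ‖(r 1).1 w‖ ^ 2 := by positivity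
  have e1 : (w c * ‖(r 0).1 w‖) ^ 2 + (w c * ‖(r 1).1 w‖) ^ 2
      = w c ^ 2 * (‖(r 0).1 w‖ ^ 2 + ‖(r 1).1 w‖ ^ 2) := by ring
  rw [e1, Real.mul_rpow (by positivity) hS]
  congr 1
  rw [← Real.rpow_natCast (w c) 2, ← Real.rpow_mul ht, ← Real.rpow_natCast (w c) w.mult]
  congr 1
  push_cast
  ring

/-- **LEAF SCALE** of `H671/LimSpec.lean`. -/
theorem scaleC753 (K : Type) [Field K] [NumberField K] : ScaleC K := by
  intro g ξ l
  by_cases hξ : ξ = 0
  · rw [hξ, smul_zero]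
  have hl : (l : K) ≠ 0 := l.ne_zero
  rw [rowOf_smul671]
  unfold rowNorm
  have hfin : ∀ v : HeightOneSpectrum (𝓞 K),
      max ‖(algebraMap K (Adl K) (l : K) * rowOf ξ g 0).2 v‖
          ‖(algebraMap K (Adl K) (l : K) * rowOf ξ g 1).2 v‖
        = ‖(algebraMap K (Adl K) (l : K)).2 v‖
          * max ‖(rowOf ξ g 0).2 v‖ ‖(rowOf ξ g 1).2 v‖ := by
    intro v
    rw [adl_snd_mul753, adl_snd_mul753, norm_mul, norm_mul,
      mul_max_of_nonneg _ _ (norm_nonneg _)]
  simp only [hfin, inf_factor_scale753]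
  rw [Finset.prod_mul_distrib,
    finprod_mul_distrib (finite_norm_ne_one753 hl) (finite_mulSupport_max753 g ξ hξ)]
  have hp := prod_norm_alg753 (K := K) hl
  calc (∏ w : InfinitePlace K, w (l : K) ^ w.mult)
          * (∏ w : InfinitePlace K,
              (‖(rowOf ξ g 0).1 w‖ ^ 2 + ‖(rowOf ξ g 1).1 w‖ ^ 2) ^ ((w.mult : ℝ) / 2))
          * ((∏ᶠ v : HeightOneSpectrum (𝓞 K), ‖(algebraMap K (Adl K) (l : K)).2 v‖)
            * ∏ᶠ v : HeightOneSpectrum (𝓞 K), max ‖(rowOf ξ g 0).2 v‖ ‖(rowOf ξ g 1).2 v‖)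
      = ((∏ w : InfinitePlace K, w (l : K) ^ w.mult)
          * ∏ᶠ v : HeightOneSpectrum (𝓞 K), ‖(algebraMap K (Adl K) (l : K)).2 v‖)
          * ((∏ w : InfinitePlace K,
              (‖(rowOf ξ g 0).1 w‖ ^ 2 + ‖(rowOf ξ g 1).1 w‖ ^ 2) ^ ((w.mult : ℝ) / 2))
            * ∏ᶠ v : HeightOneSpectrum (𝓞 K),
                max ‖(rowOf ξ g 0).2 v‖ ‖(rowOf ξ g 1).2 v‖) := by ring
    _ = _ := by rw [hp, one_mul]

end Fermat.Agent.LT.T7.H753

end
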